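import Fermat.Agent.Ribet.H39.InertiaCyclo
import Fermat.Agent.Ribet.H884.SlopeS1

/-!
# Row 38, WALL-p: (S4-TAME) is FREE, `splitPart` form  (helper39)

`mem_splitPart_of_cyclo` : a `p`-torsion class `t ∈ J₀(pM')` on which the inertia group at a place
`A` over `p` acts through the mod-`p` cyclotomic character lies in `H884.splitPart p M' A`
(hence in `H884.finPart p M' A`).  No Hecke, no newness, no non-Eisenstein hypothesis.
-/

set_option autoImplicit false

namespace Fermat.Agent.Ribet.H39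

open Fermat.Agent.Ribet.Spec Fermat.Agent.Ribet.H944.Wall Fermat.Agent.Ribet.H884 ModularCurve

/-- A class of multiplicative type at `p` lies in the split part `𝒮`. -/
theorem mem_splitPart_of_cyclo (p M' : ℕ) [NeZero M'] [NeZero p] [NeZero (p * M')]
    (hp : p.Prime) (hp2 : p ≠ 2) (hpM : ¬ p ∣ M')
    (A : ValuationSubring (AlgebraicClosure ℚ)) (hA : A.LiesOverPrime p)
    (t : JZero (p * M')) (hpt : p • t = 0)
    (hχ : ∀ σ ∈ A.inertiaSubgroupIn ℚ, ∀ c : ℕ, CycloAt p σ c → σ • t = c • t) :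
    t ∈ splitPart p M' A :=
  mem_of_cyclo_of_s1For p M' hp hp2 A hA (splitPart p M' A) (s1 p M' hp hpM A hA) t hpt hχ

/-- A class of multiplicative type at `p` lies in the finite part `𝓕`. -/
theorem mem_finPart_of_cyclo (p M' : ℕ) [NeZero M'] [NeZero p] [NeZero (p * M')]
    (hp : p.Prime) (hp2 : p ≠ 2) (hpM : ¬ p ∣ M')
    (A : ValuationSubring (AlgebraicClosure ℚ)) (hA : A.LiesOverPrime p)
    (t : JZero (p * M')) (hpt : p • t = 0)
    (hχ : ∀ σ ∈ A.inertiaSubgroupIn ℚ, ∀ c : ℕ, CycloAt p σ c → σ • t = c • t) :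
    t ∈ finPart p M' A :=
  splitPart_le_finPart p M' A (mem_splitPart_of_cyclo p M' hp hp2 hpM A hA t hpt hχ)

end Fermat.Agent.Ribet.H39
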