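import Fermat.Agent.Ribet.H944.WallTargets
import Fermat.Agent.S13.H175.Minkowski
import Fermat.Agent.S55.H414.CycloPow
import Fermat.Agent.S55.Bridge.Cyclo
import Fermat.Agent.S54.FrobExists

/-!
# Row 38, WALL-p: inertia at `p` acts non-trivially on `μ_p`, and (S4-TAME) is FREE  (helper39)

* `exists_inertia_cycloPow_ne_one` : for an odd prime `p` and a place `A` over `p` there is
  `σ ∈ I_A` with `χ_p(σ) ≠ 1` (Minkowski: `χ_p` is unramified outside `p` and non-trivial).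
* `exists_inertia_cycloAt` : the same in `CycloAt` form: `σ ∈ I_A`, `CycloAt p σ c`, `p ∤ c - 1`.
* `mem_of_cyclo_of_s1For` : **for ANY subgroup `𝒮` with `Wall.S1For p M' A 𝒮`**, every `p`-torsion
  class `t` on which the inertia group `I_A` acts through the cyclotomic character
  (`σ t = χ(σ) t`) lies in `𝒮`.
  Reason: `(χ(σ) - 1) t = σ t - t ∈ 𝒮` by (S1), and `χ(σ) - 1` is invertible modulo `p` for a
  suitable `σ ∈ I_A`.

Consequence for the (S4) board: the hypothesis `σ t = χ(σ) t` of `S4For` already gives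
`t ∈ splitPart ⊆ finPart`.  So "S4-TAME" needs no proof and the extra hypothesis `t ∈ splitPart`
of "S4-WILD" is automatic (see `TameSplit.lean`).
-/

set_option autoImplicit false

namespace Fermat.Agent.Ribet.H39

open Fermat.Agent.Ribet.Spec Fermat.Agent.Ribet.H944.Wall ModularCurve
open Fermat.Agent.S55.H414

/-- The mod-`p` cyclotomic character is non-trivial on `G_ℚ` for an odd prime `p`. -/
theorem exists_cycloPow_ne_one (p : ℕ) [NeZero p] (hp : p.Prime) (hp2 : p ≠ 2) :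
    ∃ σ : GQ, cycloPow p σ ≠ 1 := by
  by_contra hcon
  push Not at hcon
  haveI := Fermat.Agent.S54.isGalois_algebraicClosure_rat
  have hζ := zetaBar_spec p
  have hfix : ∀ σ : GQ, σ (zetaBar p) = zetaBar p := by
    intro σ
    have h1 := cycloPow_spec p σ
    rw [hcon σ, Units.val_one] at h1
    haveI : Fact (1 < p) := ⟨hp.one_lt⟩
    rw [ZMod.val_one, pow_one] at h1
    exact h1
  obtain ⟨r, hr⟩ := (InfiniteGalois.mem_range_algebraMap_iff_fixed
    (k := ℚ) (K := AlgebraicClosure ℚ) (zetaBar p)).2 hfix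
  have hrp : r ^ p = 1 := by
    apply (algebraMap ℚ (AlgebraicClosure ℚ)).injective
    rw [map_pow, hr, hζ.pow_eq_one, map_one]
  have hr1 : r = 1 := by
    have hodd : Odd p := hp.odd_of_ne_two hp2
    have := hodd.strictMono_pow (R := ℚ)
    apply this.injective
    simp only
    rw [hrp, one_pow]
  rw [hr1, map_one] at hr
  have h1 : IsPrimitiveRoot (1 : AlgebraicClosure ℚ) p := hr ▸ hζ
  have := IsPrimitiveRoot.unique h1 IsPrimitiveRoot.one
  exact hp.one_lt.ne' this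

/-- Inertia at `p` acts non-trivially on `μ_p` (`p` odd). -/
theorem exists_inertia_cycloPow_ne_one (p : ℕ) [NeZero p] (hp : p.Prime) (hp2 : p ≠ 2)
    (A : ValuationSubring (AlgebraicClosure ℚ)) (hA : A.LiesOverPrime p) :
    ∃ σ ∈ A.inertiaSubgroupIn ℚ, cycloPow p σ ≠ 1 := by
  by_contra hcon
  push Not at hcon
  have hall : ∀ σ : GQ, cycloPow p σ = 1 := by
    refine Fermat.Agent.S13.H175.minkowski_character (cycloPow p) ?_ ?_
    · refine ⟨{zetaBar p}, fun σ hσ => ?_⟩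
      rw [cycloPow_eq_iff, hσ _ (Finset.mem_singleton_self _), Units.val_one]
      haveI : Fact (1 < p) := ⟨hp.one_lt⟩
      rw [ZMod.val_one, pow_one]
    · intro q hq
      by_cases hqp : q = p
      · subst hqp
        exact ⟨A, hA, hcon⟩
      · obtain ⟨A', hA'⟩ := Fermat.Agent.S54.exists_valuationSubring_liesOver q hq
        refine ⟨A', hA', fun σ hσ => ?_⟩
        have hNv : A'.valuation ((p : ℕ) : AlgebraicClosure ℚ) = 1 :=
          Fermat.Agent.S55.Bridge.val_prime_eq_one (A := A') hA' hq hp hqp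
        have hmem := inertia_le_fixingSubgroup_cycloLevel p A' hNv hσ
        rw [← ker_cycloPow] at hmem
        exact hmem
  obtain ⟨σ, hσ⟩ := exists_cycloPow_ne_one p hp hp2
  exact hσ (hall σ)

/-- `σ` raises every `p`-th root of unity to the power `χ_p(σ)`. -/
theorem cycloAt_cycloPow (p : ℕ) [NeZero p] (σ : GQ) :
    CycloAt p σ ((cycloPow p σ : (ZMod p)ˣ) : ZMod p).val := by
  intro ζ hζ
  obtain ⟨i, -, hi⟩ := (zetaBar_spec p).eq_pow_of_pow_eq_one hζ
  rw [← hi, map_pow, cycloPow_spec p σ, ← pow_mul, ← pow_mul, mul_comm]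

/-- Inertia at `p` acts non-trivially on `μ_p`, `CycloAt` form. -/
theorem exists_inertia_cycloAt (p : ℕ) [NeZero p] (hp : p.Prime) (hp2 : p ≠ 2)
    (A : ValuationSubring (AlgebraicClosure ℚ)) (hA : A.LiesOverPrime p) :
    ∃ σ ∈ A.inertiaSubgroupIn ℚ, ∃ c : ℕ, CycloAt p σ c ∧ ¬ (p : ℤ) ∣ (c : ℤ) - 1 := by
  obtain ⟨σ, hσ, hne⟩ := exists_inertia_cycloPow_ne_one p hp hp2 A hA
  refine ⟨σ, hσ, _, cycloAt_cycloPow p σ, fun hdvd => hne ?_⟩
  apply Units.ext
  rw [Units.val_one]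
  have h1 : (((((cycloPow p σ : (ZMod p)ˣ) : ZMod p).val : ℕ) : ℤ) : ZMod p) = ((1 : ℤ) : ZMod p) := by
    rw [ZMod.intCast_eq_intCast_iff_dvd_sub]
    have h2 := dvd_neg.mpr hdvd
    rwa [neg_sub] at h2
  rw [Int.cast_natCast, ZMod.natCast_zmod_val, Int.cast_one] at h1
  exact h1

/-- **(S4-TAME) is free.**  For any subgroup `𝒮` satisfying (S1), a `p`-torsion class on which
inertia acts through the cyclotomic character lies in `𝒮`. -/
theorem mem_of_cyclo_of_s1For (p M' : ℕ) [NeZero p] [NeZero (p * M')] (hp : p.Prime)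
    (hp2 : p ≠ 2) (A : ValuationSubring (AlgebraicClosure ℚ)) (hA : A.LiesOverPrime p)
    (𝒮 : AddSubgroup (JZero (p * M'))) (h1 : S1For p M' A 𝒮)
    (t : JZero (p * M')) (hpt : p • t = 0)
    (hχ : ∀ σ ∈ A.inertiaSubgroupIn ℚ, ∀ c : ℕ, CycloAt p σ c → σ • t = c • t) :
    t ∈ 𝒮 := by
  obtain ⟨σ, hσ, c, hc, hndvd⟩ := exists_inertia_cycloAt p hp hp2 A hA
  have h2 : σ • t - t ∈ 𝒮 := h1 t hpt σ hσ
  rw [hχ σ hσ c hc] at h2
  -- `(c - 1) • t ∈ 𝒮`
  have h3 : ((c : ℤ) - 1) • t ∈ 𝒮 := by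
    have e : ((c : ℤ) - 1) • t = c • t - t := by
      rw [sub_smul, one_smul, natCast_zsmul]
    rw [e]
    exact h2
  have hcop : IsCoprime ((c : ℤ) - 1) (p : ℤ) := by
    have hpp : Prime (p : ℤ) := Nat.prime_iff_prime_int.mp hp
    exact (IsCoprime.symm ((Prime.coprime_iff_not_dvd hpp).mpr hndvd))
  obtain ⟨u, v, huv⟩ := hcop
  have hx : t = u • (((c : ℤ) - 1) • t) + v • ((p : ℤ) • t) := by
    rw [smul_smul, smul_smul, ← add_zsmul, huv, one_zsmul]
  rw [hx]
  refine 𝒮.add_mem (𝒮.zsmul_mem h3 u) ?_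
  have : ((p : ℤ) • t) = 0 := by rw [natCast_zsmul]; exact hpt
  rw [this, smul_zero]
  exact 𝒮.zero_mem

end Fermat.Agent.Ribet.H39
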